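import Mathlib

set_option autoImplicit false

namespace Fermat.Agent.S54

open Polynomial

/-- Kaplansky, Commutative Rings, Theorem 67: if `R` is local and integrally closed in the field
`L`, and `u : L` is a root of a polynomial over `R` one of whose coefficients is a unit, then
`u` or `u⁻¹` lies in `R`. -/
theorem mem_or_inv_mem_of_aeval_eq_zero {R L : Type*} [CommRing R] [IsLocalRing R] [Field L]
    [Algebra R L] [IsIntegrallyClosedIn R L]
    (u : L) : ∀ (n : ℕ) (p : Polynomial R), p.natDegree ≤ n → Polynomial.aeval u p = 0 →
      (∃ i, IsUnit (p.coeff i)) →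
      u ∈ (algebraMap R L).range ∨ u⁻¹ ∈ (algebraMap R L).range := by
  intro n
  induction n with
  | zero =>
    intro p hdeg hp ⟨i, hi⟩
    exfalso
    have hpC : p = C (p.coeff 0) := Polynomial.eq_C_of_natDegree_le_zero hdeg
    rw [hpC, aeval_C] at hp
    rcases Nat.eq_zero_or_pos i with h0 | hpos
    · subst h0
      have := hi.map (algebraMap R L)
      rw [hp] at this
      exact not_isUnit_zero this
    · rw [hpC, coeff_C] at hi
      simp only [hpos.ne', if_false] at hi
      exact not_isUnit_zero hi
  | succ n ih =>
    intro p hdeg hp ⟨i, hi⟩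
    by_cases hdeg' : p.natDegree ≤ n
    · exact ih p hdeg' hp ⟨i, hi⟩
    have hdeg_eq : p.natDegree = n + 1 := le_antisymm hdeg (by omega)
    by_cases hu : u = 0
    · left; exact ⟨0, by rw [hu, map_zero]⟩
    obtain ⟨c, hc⟩ := IsIntegrallyClosedIn.algebraMap_eq_of_integral
      (isIntegral_leadingCoeff_smul p u hp)
    rw [Algebra.smul_def] at hc
    set a := p.leadingCoeff with ha
    by_cases hau : IsUnit a
    · left
      obtain ⟨a', ha'⟩ := hau
      refine ⟨(a'⁻¹ : Rˣ) * c, ?_⟩
      rw [map_mul, hc, ← ha', ← mul_assoc, ← map_mul, Units.inv_mul, map_one, one_mul]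
    by_cases hcu : IsUnit c
    · right
      obtain ⟨c', rfl⟩ := hcu
      refine ⟨a * (c'⁻¹ : Rˣ), ?_⟩
      have hc0 : algebraMap R L (c' : R) ≠ 0 := (c'.isUnit.map (algebraMap R L)).ne_zero
      rw [map_mul]
      have h1 : algebraMap R L ((c'⁻¹ : Rˣ) : R) = (algebraMap R L (c' : R))⁻¹ := by
        apply eq_inv_of_mul_eq_one_left
        rw [← map_mul, Units.inv_mul, map_one]
      have ha0 : algebraMap R L a ≠ 0 := by
        intro h0
        rw [h0, zero_mul] at hc
        exact hc0 hc
      rw [h1, hc]
      field_simp
    -- both nonunits: lower the degree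
    let p' : Polynomial R := p.eraseLead + C c * X ^ n
    have hp'deg : p'.natDegree ≤ n := by
      refine (natDegree_add_le _ _).trans (max_le ?_ ?_)
      · have := eraseLead_natDegree_le p
        omega
      · exact natDegree_C_mul_X_pow_le c n
    have hp'eval : aeval u p' = 0 := by
      have h1 : aeval u p.eraseLead + algebraMap R L a * u ^ (n + 1) = 0 := by
        have := congrArg (aeval u) (eraseLead_add_monomial_natDegree_leadingCoeff p)
        rw [map_add, hp, hdeg_eq, ← C_mul_X_pow_eq_monomial] at this
        simpa using this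
      simp only [p', map_add, map_mul, aeval_C, map_pow, aeval_X, hc]
      rw [← h1]
      ring
    have hp'coeff : ∃ j, IsUnit (p'.coeff j) := by
      have hi_ne : i ≠ p.natDegree := by
        intro h
        apply hau
        rw [ha, leadingCoeff, ← h]
        exact hi
      by_cases hin : i = n
      · refine ⟨n, ?_⟩
        simp only [p', coeff_add, coeff_C_mul, coeff_X_pow, if_true, mul_one]
        rw [eraseLead_coeff_of_ne _ (hin ▸ hi_ne)]
        by_contra hnu
        have h2 : p.coeff n ∈ nonunits R := by
          have := IsLocalRing.nonunits_add (a := p.coeff n + c) (b := -c) hnu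
            (by simpa using hcu)
          simpa using this
        exact h2 (hin ▸ hi)
      · refine ⟨i, ?_⟩
        simp only [p', coeff_add, coeff_C_mul, coeff_X_pow, hin, if_false, mul_zero, add_zero]
        rwa [eraseLead_coeff_of_ne _ hi_ne]
    exact ih p' hp'deg hp'eval hp'coeff

end Fermat.Agent.S54
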