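import Mathlib
import Fermat.Prelude.Def_EllipticCurve_FrobeniusTrace
import Fermat.Agent.S54.Kaplansky

set_option autoImplicit false
set_option linter.style.haveILetI false
set_option linter.unusedSimpArgs false

namespace Fermat.Agent.S54

open scoped Pointwise

noncomputable section

abbrev Qb := AlgebraicClosure ℚ
abbrev GQ := AlgebraicClosure ℚ ≃ₐ[ℚ] AlgebraicClosure ℚ
abbrev Zb := integralClosure ℤ (AlgebraicClosure ℚ)
abbrev Zs : Subring Qb := (integralClosure ℤ (AlgebraicClosure ℚ)).toSubring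

theorem isGalois_Qb : IsGalois ℚ Qb := by
  haveI : Algebra.IsAlgebraic ℚ Qb := AlgebraicClosure.isAlgebraic ℚ
  haveI : IsAlgClosure ℚ Qb := ⟨inferInstance, inferInstance⟩
  haveI : Normal ℚ Qb := IsAlgClosure.normal ℚ Qb
  exact ⟨⟩

theorem isInvariant_Zb : Algebra.IsInvariant ℤ Zb GQ := by
  haveI := isGalois_Qb
  refine ⟨fun b hb => ?_⟩
  have h1 : (b : Qb) ∈ (⊥ : IntermediateField ℚ Qb) := by
    rw [InfiniteGalois.mem_bot_iff_fixed]
    intro f
    have := congrArg (fun z : Zb => (z : Qb)) (hb f)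
    simpa using this
  obtain ⟨r, hr⟩ := IntermediateField.mem_bot.1 h1
  have hint : IsIntegral ℤ (algebraMap ℚ Qb r) := hr ▸ b.2
  have hintQ : IsIntegral ℤ r :=
    (isIntegral_algebraMap_iff (algebraMap ℚ Qb).injective).mp hint
  obtain ⟨m, hm⟩ := IsIntegrallyClosed.isIntegral_iff.mp hintQ
  refine ⟨m, Subtype.ext ?_⟩
  rw [← hr, ← hm]
  simp

theorem continuousSMul_Zb [TopologicalSpace Zb] [DiscreteTopology Zb] : ContinuousSMul GQ Zb := by
  haveI : Algebra.IsAlgebraic ℚ Qb := AlgebraicClosure.isAlgebraic ℚ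
  rw [continuousSMul_iff_stabilizer_isOpen]
  intro x
  have := stabilizer_isOpen_of_isIntegral (K := ℚ) (L := Qb) (x : Qb)
  convert this using 1
  ext g
  simp only [SetLike.mem_coe, MulAction.mem_stabilizer_iff]
  constructor
  · intro h
    have := congrArg (fun z : Zb => (z : Qb)) h
    simpa using this
  · intro h
    exact Subtype.ext h

/-- Every element of `Zb` has an `n`-th root in `Zb` for `n > 0`. -/
theorem exists_pow_eq_Zb (b : Zb) (n : ℕ) (hn : 0 < n) : ∃ c : Zb, c ^ n = b := by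
  obtain ⟨z, hz⟩ := IsAlgClosed.exists_pow_nat_eq (b : Qb) hn
  have hzint : IsIntegral ℤ z := by
    have : IsIntegral ℤ (z ^ n) := hz ▸ b.2
    exact IsIntegral.of_pow hn this
  exact ⟨⟨z, hzint⟩, Subtype.ext hz⟩

/-- The stabiliser of a prime `Q` of `Zb` over `ℓ` contains an element acting as `x ↦ x ^ ℓ`
modulo `Q`. -/
theorem exists_frob_Zb (ℓ : ℕ) (hℓ : ℓ.Prime) (Q : Ideal Zb) [hQp : Q.IsPrime]
    (hQ : (ℓ : Zb) ∈ Q) :
    ∃ σ : GQ, σ • Q = Q ∧ ∀ b : Zb, σ • b - b ^ ℓ ∈ Q := by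
  haveI := isGalois_Qb
  haveI := isInvariant_Zb
  letI : TopologicalSpace Zb := ⊥
  haveI : DiscreteTopology Zb := ⟨rfl⟩
  haveI := continuousSMul_Zb
  haveI : Fact ℓ.Prime := ⟨hℓ⟩
  let P : Ideal ℤ := Ideal.span {(ℓ : ℤ)}
  haveI hPmax : P.IsMaximal := by
    have hprime : Prime (ℓ : ℤ) := Nat.prime_iff_prime_int.mp hℓ
    exact PrincipalIdealRing.isMaximal_of_irreducible hprime.irreducible
  haveI hlies : Q.LiesOver P := by
    constructor
    have hle : P ≤ Q.under ℤ := by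
      rw [Ideal.span_le]
      intro x hx
      rw [Set.mem_singleton_iff] at hx
      subst hx
      show algebraMap ℤ Zb (ℓ : ℤ) ∈ Q
      simpa using hQ
    exact hPmax.eq_of_le (Ideal.IsPrime.ne_top (Ideal.comap_isPrime _ Q)) hle
  haveI hchar : CharP (Zb ⧸ Q) ℓ := by
    rw [CharP.charP_iff_prime_eq_zero hℓ]
    have : (Ideal.Quotient.mk Q) (ℓ : Zb) = 0 := Ideal.Quotient.eq_zero_iff_mem.mpr hQ
    simpa using this
  -- the Frobenius automorphism
  have hbij : Function.Bijective (frobenius (Zb ⧸ Q) ℓ) := by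
    refine ⟨frobenius_inj (Zb ⧸ Q) ℓ, fun x => ?_⟩
    obtain ⟨b, rfl⟩ := Ideal.Quotient.mk_surjective x
    obtain ⟨c, hc⟩ := exists_pow_eq_Zb b ℓ hℓ.pos
    exact ⟨Ideal.Quotient.mk Q c, by rw [frobenius_def, ← map_pow, hc]⟩
  let F : (Zb ⧸ Q) ≃ₐ[ℤ ⧸ P] (Zb ⧸ Q) :=
    AlgEquiv.ofRingEquiv (f := RingEquiv.ofBijective (frobenius (Zb ⧸ Q) ℓ) hbij) (by
      intro x
      obtain ⟨m, rfl⟩ := Ideal.Quotient.mk_surjective x
      show frobenius (Zb ⧸ Q) ℓ _ = _
      have h1 : algebraMap (ℤ ⧸ P) (Zb ⧸ Q) (Ideal.Quotient.mk P m) = ((m : ℤ) : Zb ⧸ Q) := by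
        have : (Ideal.Quotient.mk P m) = ((m : ℤ) : ℤ ⧸ P) := by simp
        rw [this, map_intCast]
      rw [h1]
      exact map_intCast (frobenius (Zb ⧸ Q) ℓ) m)
  obtain ⟨⟨σ, hσ⟩, hσF⟩ := Ideal.Quotient.stabilizerHom_surjective_of_profinite (G := GQ) P Q F
  refine ⟨σ, hσ, fun b => ?_⟩
  have := congrArg (fun f => f (Ideal.Quotient.mk Q b)) hσF
  simp only [Ideal.Quotient.stabilizerHom_apply] at this
  rw [← Ideal.Quotient.eq]
  rw [map_pow]
  exact this

theorem isFractionRing_Zs : IsFractionRing Zs Qb := by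
  haveI : Algebra.IsAlgebraic ℚ Qb := AlgebraicClosure.isAlgebraic ℚ
  haveI : Algebra.IsAlgebraic ℤ Qb := by
    exact (IsFractionRing.comap_isAlgebraic_iff (A := ℤ) (K := ℚ) (C := Qb)).mpr inferInstance
  exact integralClosure.isFractionRing_of_algebraic (A := ℤ) (L := Qb) (fun x hx => by
    simpa using hx)

theorem isIntegrallyClosed_Zs : IsIntegrallyClosed Zs := by
  haveI := isFractionRing_Zs
  rw [isIntegrallyClosed_iff_isIntegrallyClosedIn Qb]
  exact (inferInstance : IsIntegrallyClosedIn Zb Qb)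

section Loc

variable (Q : Ideal Zs) [Q.IsPrime]

abbrev locQ : LocalSubring Qb := LocalSubring.ofPrime Zs Q

theorem isIntegrallyClosedIn_locQ : IsIntegrallyClosedIn (locQ Q).toSubring Qb := by
  haveI := isFractionRing_Zs
  haveI := isIntegrallyClosed_Zs
  haveI : IsFractionRing (locQ Q).toSubring Qb :=
    IsFractionRing.isFractionRing_of_isDomain_of_isLocalization Q.primeCompl
      (locQ Q).toSubring Qb
  haveI : IsIntegrallyClosed (locQ Q).toSubring :=
    isIntegrallyClosed_of_isLocalization (R := Zs) (locQ Q).toSubring Q.primeCompl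
      Q.primeCompl_le_nonZeroDivisors
  exact (isIntegrallyClosed_iff_isIntegrallyClosedIn Qb).mp inferInstance

theorem coe_algebraMap_locQ (z : Zs) :
    ((algebraMap Zs (locQ Q).toSubring z : (locQ Q).toSubring) : Qb) = (z : Qb) := rfl

theorem mem_locQ_iff (x : Qb) :
    x ∈ (locQ Q).toSubring ↔ ∃ b s : Zs, s ∉ Q ∧ x * (s : Qb) = (b : Qb) := by
  constructor
  · intro hx
    obtain ⟨⟨b, s⟩, h⟩ := IsLocalization.surj Q.primeCompl (⟨x, hx⟩ : (locQ Q).toSubring)
    refine ⟨b, s.1, s.2, ?_⟩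
    have := congrArg (fun z : (locQ Q).toSubring => (z : Qb)) h
    simpa [coe_algebraMap_locQ] using this
  · rintro ⟨b, s, hs, h⟩
    have hsu : IsUnit (algebraMap Zs (locQ Q).toSubring s) :=
      IsLocalization.map_units (locQ Q).toSubring (⟨s, hs⟩ : Q.primeCompl)
    obtain ⟨t, ht⟩ := hsu.exists_right_inv
    have hs0 : (s : Qb) ≠ 0 := by
      intro h0
      apply hs
      have : s = 0 := Subtype.ext h0
      rw [this]; exact Q.zero_mem
    have ht' : (s : Qb) * (t : Qb) = 1 := by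
      have := congrArg (fun z : (locQ Q).toSubring => (z : Qb)) ht
      simpa [coe_algebraMap_locQ] using this
    have hx : x = (b : Qb) * (t : Qb) := by
      have : x * ((s : Qb) * (t : Qb)) = (b : Qb) * (t : Qb) := by rw [← mul_assoc, h]
      rwa [ht', mul_one] at this
    rw [hx]
    exact Subring.mul_mem _ (LocalSubring.le_ofPrime Zs Q b.2) t.2

theorem exists_unit_coeff (x : Qb) : ∃ p : Polynomial (locQ Q).toSubring,
    Polynomial.aeval x p = 0 ∧ ∃ i, IsUnit (p.coeff i) := by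
  haveI : Algebra.IsAlgebraic ℚ Qb := AlgebraicClosure.isAlgebraic ℚ
  haveI : Algebra.IsAlgebraic ℤ Qb := by
    exact (IsFractionRing.comap_isAlgebraic_iff (A := ℤ) (K := ℚ) (C := Qb)).mpr inferInstance
  obtain ⟨p, hp0, hp⟩ := Algebra.IsAlgebraic.isAlgebraic (R := ℤ) x
  have hprim : p.primPart.IsPrimitive := p.isPrimitive_primPart
  have hpp : Polynomial.aeval x p.primPart = 0 :=
    Polynomial.aeval_primPart_eq_zero hp0 hp
  set pp := p.primPart with hppdef
  let P : Ideal ℤ := Q.comap (algebraMap ℤ Zs)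
  have hPprime : P.IsPrime := Ideal.comap_isPrime _ Q
  have hex : ∃ i, pp.coeff i ∉ P := by
    by_contra hcon
    push Not at hcon
    obtain ⟨q, hq⟩ := (IsPrincipalIdealRing.principal P).principal
    have hdvd : ∀ i, q ∣ pp.coeff i := by
      intro i
      have := hcon i
      rw [hq] at this
      exact Ideal.mem_span_singleton.mp this
    have hC : Polynomial.C q ∣ pp := (Polynomial.C_dvd_iff_dvd_coeff q pp).mpr hdvd
    have hqu : IsUnit q := hprim q hC
    apply hPprime.ne_top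
    rw [hq]
    exact Ideal.span_singleton_eq_top.mpr hqu
  obtain ⟨i, hi⟩ := hex
  refine ⟨pp.map (algebraMap ℤ (locQ Q).toSubring), ?_, i, ?_⟩
  · rw [Polynomial.aeval_map_algebraMap]
    exact hpp
  · rw [Polynomial.coeff_map]
    have hmem : algebraMap ℤ Zs (pp.coeff i) ∈ Q.primeCompl := hi
    have := IsLocalization.map_units (locQ Q).toSubring
      (⟨algebraMap ℤ Zs (pp.coeff i), hmem⟩ : Q.primeCompl)
    convert this using 1
    apply Subtype.ext
    simp [coe_algebraMap_locQ]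

/-- The localisation of `Zs` at `Q` is a valuation subring of `Qb`. -/
def valQ : ValuationSubring Qb :=
  ValuationSubring.ofSubring (locQ Q).toSubring (fun x => by
    haveI := isIntegrallyClosedIn_locQ Q
    obtain ⟨p, hp, hi⟩ := exists_unit_coeff Q x
    have := mem_or_inv_mem_of_aeval_eq_zero (R := (locQ Q).toSubring) x p.natDegree p le_rfl hp hi
    rcases this with ⟨y, hy⟩ | ⟨y, hy⟩
    · left; rw [← hy]; exact y.2
    · right; rw [← hy]; exact y.2)

theorem mem_valQ_iff (x : Qb) :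
    x ∈ valQ Q ↔ ∃ b s : Zs, s ∉ Q ∧ x * (s : Qb) = (b : Qb) :=
  mem_locQ_iff Q x

theorem coe_mem_valQ (b : Zs) : (b : Qb) ∈ valQ Q :=
  (mem_valQ_iff Q _).mpr ⟨b, 1, fun h => (Ideal.IsPrime.ne_top ‹_›)
    ((Ideal.eq_top_iff_one Q).mpr h), by simp⟩

theorem coe_mem_nonunits_valQ (b : Zs) (hb : b ∈ Q) : (b : Qb) ∈ (valQ Q).nonunits := by
  rw [ValuationSubring.mem_nonunits_iff_or]
  by_cases h0 : (b : Qb) = 0
  · exact Or.inl h0
  right
  intro hmem
  obtain ⟨c, s, hs, h⟩ := (mem_valQ_iff Q _).mp hmem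
  apply hs
  have : s = c * b := by
    apply Subtype.ext
    push_cast
    rw [← h]
    field_simp
  rw [this]
  exact Q.mul_mem_left c hb

theorem residue_valQ_eq_zero (b : Zs) (hb : b ∈ Q) :
    IsLocalRing.residue (valQ Q) ⟨(b : Qb), coe_mem_valQ Q b⟩ = 0 := by
  rw [IsLocalRing.residue_eq_zero_iff]
  exact ValuationSubring.coe_mem_nonunits_iff.mp (coe_mem_nonunits_valQ Q b hb)

theorem residue_valQ_ne_zero (s : Zs) (hs : s ∉ Q) :
    IsLocalRing.residue (valQ Q) ⟨(s : Qb), coe_mem_valQ Q s⟩ ≠ 0 := by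
  intro h
  rw [IsLocalRing.residue_eq_zero_iff] at h
  have h1 : (s : Qb) ∈ (valQ Q).nonunits := ValuationSubring.coe_mem_nonunits_iff.mpr h
  rw [ValuationSubring.mem_nonunits_iff_or] at h1
  have hs0 : (s : Qb) ≠ 0 := by
    intro h0
    apply hs
    have : s = 0 := Subtype.ext h0
    rw [this]; exact Q.zero_mem
  rcases h1 with h1 | h1
  · exact hs0 h1
  · apply h1
    refine (mem_valQ_iff Q _).mpr ⟨1, s, hs, ?_⟩
    simp [hs0]

end Loc

theorem exists_prime_over (ℓ : ℕ) (hℓ : ℓ.Prime) :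
    ∃ Q : Ideal Zb, Q.IsPrime ∧ (ℓ : Zb) ∈ Q := by
  let P : Ideal ℤ := Ideal.span {(ℓ : ℤ)}
  haveI hPmax : P.IsMaximal := by
    have hprime : Prime (ℓ : ℤ) := Nat.prime_iff_prime_int.mp hℓ
    exact PrincipalIdealRing.isMaximal_of_irreducible hprime.irreducible
  have hker : RingHom.ker (algebraMap ℤ Zb) ≤ P := by
    intro x hx
    rw [RingHom.mem_ker] at hx
    have hx' : ((x : ℤ) : Qb) = 0 := by
      have := congrArg (fun z : Zb => (z : Qb)) hx
      simpa using this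
    have : x = 0 := by exact_mod_cast hx'
    rw [this]; exact P.zero_mem
  obtain ⟨Q, hQ, hQP⟩ := Ideal.exists_ideal_over_prime_of_isIntegral_of_isDomain (S := Zb) P hker
  refine ⟨Q, hQ, ?_⟩
  have h1 : (ℓ : ℤ) ∈ Q.comap (algebraMap ℤ Zb) := by
    rw [hQP]; exact Ideal.subset_span rfl
  simpa using h1

/-- Existence of Frobenius elements in the absolute Galois group of `ℚ`. -/
theorem exists_isFrobeniusAt (ℓ : ℕ) (hℓ : ℓ.Prime) :
    ∃ (A : ValuationSubring (AlgebraicClosure ℚ))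
      (σ : AlgebraicClosure ℚ ≃ₐ[ℚ] AlgebraicClosure ℚ),
      A.LiesOverPrime ℓ ∧ A.IsFrobeniusAt σ ℓ := by
  obtain ⟨Q, hQp, hQ⟩ := exists_prime_over ℓ hℓ
  obtain ⟨σ, hσQ, hσ⟩ := exists_frob_Zb ℓ hℓ Q hQ
  let Q' : Ideal Zs := Q
  haveI : Q'.IsPrime := hQp
  have hstab : ∀ τ : GQ, τ • Q = Q → ∀ x ∈ valQ Q', τ x ∈ valQ Q' := by
    intro τ hτ x hx
    obtain ⟨b, s, hs, h⟩ := (mem_valQ_iff Q' x).mp hx
    let b' : Zb := ⟨b.1, b.2⟩
    let s' : Zb := ⟨s.1, s.2⟩
    let tb : Zb := τ • b'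
    let ts : Zb := τ • s'
    refine (mem_valQ_iff Q' _).mpr ⟨⟨tb.1, tb.2⟩, ⟨ts.1, ts.2⟩, ?_, ?_⟩
    · intro hmem
      apply hs
      have h2 : τ • s' ∈ τ • Q := by rw [hτ]; exact hmem
      have h3 : s' ∈ Q := Ideal.smul_mem_pointwise_smul_iff.mp h2
      exact h3
    · show τ x * τ (s : Qb) = τ (b : Qb)
      rw [← map_mul, h]
  have hσinv : σ⁻¹ • Q = Q := by
    conv_lhs => rw [← hσQ]
    rw [inv_smul_smul]
  have hσmem : σ ∈ (valQ Q').decompositionSubgroup ℚ := by
    rw [MulAction.mem_stabilizer_iff]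
    apply SetLike.ext
    intro x
    rw [ValuationSubring.mem_pointwise_smul_iff_inv_smul_mem]
    constructor
    · intro h
      have := hstab σ hσQ _ h
      simpa using this
    · intro h
      exact hstab σ⁻¹ hσinv x h
  refine ⟨valQ Q', σ, ?_, hσmem, fun x => ?_⟩
  · have := coe_mem_nonunits_valQ Q' ((ℓ : Zb) : Zs) hQ
    simpa [ValuationSubring.LiesOverPrime] using this
  · obtain ⟨a, rfl⟩ := IsLocalRing.residue_surjective x
    obtain ⟨b, s, hs, h⟩ := (mem_valQ_iff Q' (a : Qb)).mp a.2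
    set g : (valQ Q').decompositionSubgroup ℚ := ⟨σ, hσmem⟩ with hg
    let ι : Zs → valQ Q' := fun z => ⟨(z : Qb), coe_mem_valQ Q' z⟩
    have hι : ∀ z : Zs, g • IsLocalRing.residue (valQ Q') (ι z) =
        (IsLocalRing.residue (valQ Q') (ι z)) ^ ℓ := by
      intro z
      rw [← IsLocalRing.ResidueField.residue_smul, ← map_pow, ← sub_eq_zero, ← map_sub]
      let z' : Zb := ⟨z.1, z.2⟩
      have hz := hσ z'
      let w : Zb := σ • z' - z' ^ ℓ
      have := residue_valQ_eq_zero Q' ⟨w.1, w.2⟩ hz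
      convert this using 2
      apply Subtype.ext
      rfl
    have hmul : a * ι s = ι b := Subtype.ext h
    have h1 : (g • IsLocalRing.residue (valQ Q') a) * (g • IsLocalRing.residue (valQ Q') (ι s))
        = g • IsLocalRing.residue (valQ Q') (ι b) := by
      rw [← smul_mul', ← map_mul, hmul]
    rw [hι s, hι b, ← hmul, map_mul, mul_pow] at h1
    have hne : (IsLocalRing.residue (valQ Q') (ι s)) ^ ℓ ≠ 0 :=
      pow_ne_zero _ (residue_valQ_ne_zero Q' s hs)
    exact mul_right_cancel₀ hne h1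

end
end Fermat.Agent.S54
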